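import Fermat.Agent.S59.LoSqC.H835.SplitDictCast
import Fermat.Agent.S59.LoSqC.H862.SlopeZeroGen
import Fermat.Agent.S59.LoSqC.H34.SlopeZeroFin

/-!
# S59 / cell (C) LO-SQ, leaf SPLIT-E (helper835), part 4: `hKer` in the J-NATIVE design

Design (a) of the `F`-tower of the count: `F n = H34.slopeZeroPart_h34 q M (p ^ n) …
= {x ∈ J₀(q M) | H862.HasSlopeZeroGen (p ^ n) q M P x}` (level `q * M`, `E` = the inertia field of
`P`), and `S n` = the pull-back to the level `q * M` of
`H296.kummerClasses296 E (M * q) (p ^ n) (H193.splitDiv E w x' (p ^ n) V∞ V₀)`.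

* **`hKer_native835`** : `H862.HasSlopeZeroGen m q M P x` and `x ∈ splitPartQ m q M P`
  ⟹ `levelCastJ x ∈ kummerClasses296 E (M * q) m (splitDiv …)`  (every `m` prime to `q`);
* `toricTower835`      : the tower `S n` at the level `q * M`;
* **`hKer_tower835`**  : the hypothesis `hKer` of `H505.wCountLab505` / `wCountTower505`, VERBATIM,
  for `F n = slopeZeroPart_h34 … (p ^ n)` and `S = toricTower835`.

Inputs: `H862.slopeZeroE_of_hasSlopeZeroGen862` (helper862), `H27.isKummerGen_levelCastJ_iff`
(helper27), `H835.hredS835`.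
-/

set_option autoImplicit false
set_option linter.style.haveILetI false
set_option linter.unusedSectionVars false
set_option linter.unusedVariables false
set_option synthInstance.maxHeartbeats 400000
set_option maxHeartbeats 1600000

noncomputable section

namespace Fermat.Agent.S59.LoSqC.H835

open ModularCurve HahnSeries AlgebraicCurve
open Fermat.Agent
open Fermat.Agent.S24 Fermat.Agent.A2.H528 Fermat.Agent.A2.T1.H669 Fermat.Agent.Ribet.H884
open Fermat.Agent.A2.H708
open Fermat.Agent.Ribet.H158.WallQ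
open Fermat.Agent.A2.IF.H429 (inertiaField)

local notation "Q̄" => AlgebraicClosure ℚ

section Level

variable {P : ValuationSubring A2.Qb} {M q : ℕ}
  [NeZero M] [NeZero q] [NeZero (M * q)] [NeZero (q * M)]

/-- **`hKer`, J-native design, pointwise.** -/
theorem hKer_native835 [IsDiscreteValuationRing (A2.RE P (inertiaField P))]
    [HenselianLocalRing (A2.RE P (inertiaField P))]
    [IsAlgClosed (IsLocalRing.ResidueField (A2.RE P (inertiaField P)))]
    {w : A2.RE P (inertiaField P)} (hS : S36.Mod3.Std P (inertiaField P) M q w)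
    {V : ValuationSubring (A2.Mod.FE (inertiaField P) (M * q))}
    (hV : A2.Mod.IsVinf P (inertiaField P) (M * q) V)
    {W : A2.Mod.FE (inertiaField P) (M * q) ≃ₐ[inertiaField P]
      A2.Mod.FE (inertiaField P) (M * q)}
    (hW : A2.Mod.IsFricke (inertiaField P) (M * q) W)
    {m : ℕ} (hm : 0 < m) (hqm : ¬ q ∣ m)
    {x : JZero (q * M)} (hx : H862.HasSlopeZeroGen m q M P x)
    (hxS : x ∈ splitPartQ m q M P) :
    H27.levelCastJ (Nat.mul_comm q M) x ∈
      H296.kummerClasses296 (inertiaField P) (M * q) m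
        (H193.splitDiv (R := A2.RE P (inertiaField P)) (inertiaField P) w
          (A2.Mod.xE (inertiaField P) M q) m V
          (V.comap (W : A2.Mod.FE (inertiaField P) (M * q) →+*
            A2.Mod.FE (inertiaField P) (M * q)))) := by
  obtain ⟨g, hg0, hgD, hgK, a₁, a₂, h1, h2, hd⟩ :=
    H862.slopeZeroE_of_hasSlopeZeroGen862 P M q m hS.q_prime hS.q_not_dvd hS.neat.hasAux
      hS.lies_over w hS.unif V W hV hW x hx
  have hff : ((iota (inertiaField P) (modularFunctionFieldFull (M * q)) g : FF (M * q)) :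
      LaurentSeries Q̄) =
      ((Ribet.H868.toFF (inertiaField P) (Nat.mul_comm M q) g : FF (q * M)) :
        LaurentSeries Q̄) := by
    rw [Ribet.H868.coe_toFF]
    rfl
  have hK : IsKummerGen (M * q) m (iota (inertiaField P) (modularFunctionFieldFull (M * q)) g)
      (H27.levelCastJ (Nat.mul_comm q M) x) :=
    (H27.isKummerGen_levelCastJ_iff (Nat.mul_comm q M) hff x).2 hgK
  exact hredS835 hS hV hW hm hqm hxS (isKummerGenE296_iff835.2 hK) ⟨a₁, a₂, h1, h2, hd⟩

/-- **The toric tower at the level `q * M`**: the pull-back of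
`kummerClasses296 E (M * q) (p ^ n) (splitDiv E w x' (p ^ n) V V₀)` along `levelCastJ`. -/
def toricTower835 [IsDiscreteValuationRing (A2.RE P (inertiaField P))]
    [HenselianLocalRing (A2.RE P (inertiaField P))]
    [IsAlgClosed (IsLocalRing.ResidueField (A2.RE P (inertiaField P)))]
    (w : A2.RE P (inertiaField P)) (p : ℕ)
    (V V₀ : ValuationSubring (A2.Mod.FE (inertiaField P) (M * q))) (n : ℕ) :
    AddSubgroup (JZero (q * M)) :=
  (H296.kummerClasses296 (inertiaField P) (M * q) (p ^ n)
    (H193.splitDiv (R := A2.RE P (inertiaField P)) (inertiaField P) w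
      (A2.Mod.xE (inertiaField P) M q) (p ^ n) V V₀)).comap
    (H27.levelCastJ (Nat.mul_comm q M)).toAddMonoidHom

theorem mem_toricTower835 [IsDiscreteValuationRing (A2.RE P (inertiaField P))]
    [HenselianLocalRing (A2.RE P (inertiaField P))]
    [IsAlgClosed (IsLocalRing.ResidueField (A2.RE P (inertiaField P)))]
    {w : A2.RE P (inertiaField P)} {p : ℕ}
    {V V₀ : ValuationSubring (A2.Mod.FE (inertiaField P) (M * q))} {n : ℕ}
    {x : JZero (q * M)} :
    x ∈ toricTower835 (M := M) (q := q) w p V V₀ n ↔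
      H27.levelCastJ (Nat.mul_comm q M) x ∈
        H296.kummerClasses296 (inertiaField P) (M * q) (p ^ n)
          (H193.splitDiv (R := A2.RE P (inertiaField P)) (inertiaField P) w
            (A2.Mod.xE (inertiaField P) M q) (p ^ n) V V₀) :=
  Iff.rfl

/-- The classes of the toric tower are killed by `p ^ n` (`hS` of `H505.wCountLab505`). -/
theorem toricTower835_nsmul [IsDiscreteValuationRing (A2.RE P (inertiaField P))]
    [HenselianLocalRing (A2.RE P (inertiaField P))]
    [IsAlgClosed (IsLocalRing.ResidueField (A2.RE P (inertiaField P)))]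
    {w : A2.RE P (inertiaField P)} {p : ℕ}
    {V V₀ : ValuationSubring (A2.Mod.FE (inertiaField P) (M * q))} (n : ℕ) :
    ∀ x ∈ toricTower835 (M := M) (q := q) w p V V₀ n, (p ^ n) • x = 0 := by
  intro x hx
  have h := H296.nsmul_eq_zero_of_mem_kummerClasses296 (mem_toricTower835.1 hx)
  apply (H27.levelCastJ (Nat.mul_comm q M)).injective
  rw [map_nsmul, h, map_zero]

/-- **`hKer` of `H505.wCountLab505`, VERBATIM**, for `F n = H34.slopeZeroPart_h34 … (p ^ n)` and
`S = toricTower835`. -/
theorem hKer_tower835 [IsDiscreteValuationRing (A2.RE P (inertiaField P))]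
    [HenselianLocalRing (A2.RE P (inertiaField P))]
    [IsAlgClosed (IsLocalRing.ResidueField (A2.RE P (inertiaField P)))]
    {w : A2.RE P (inertiaField P)} (hS : S36.Mod3.Std P (inertiaField P) M q w)
    {V : ValuationSubring (A2.Mod.FE (inertiaField P) (M * q))}
    (hV : A2.Mod.IsVinf P (inertiaField P) (M * q) V)
    {W : A2.Mod.FE (inertiaField P) (M * q) ≃ₐ[inertiaField P]
      A2.Mod.FE (inertiaField P) (M * q)}
    (hW : A2.Mod.IsFricke (inertiaField P) (M * q) W)
    {p : ℕ} (hp : 0 < p) (hqp : ¬ q ∣ p) :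
    ∀ x ∈ H34.slopeZeroPart_h34 q M (p ^ 1) hS.q_prime hS.q_not_dvd hS.neat.hasAux P
        hS.lies_over,
      x ∈ splitPartQ p q M P →
      x ∈ toricTower835 (M := M) (q := q) w p V
        (V.comap (W : A2.Mod.FE (inertiaField P) (M * q) →+*
          A2.Mod.FE (inertiaField P) (M * q))) 1 := by
  intro x hx hxS
  have hx' : H862.HasSlopeZeroGen (p ^ 1) q M P x := hx
  have hxS' : x ∈ splitPartQ (p ^ 1) q M P := by
    rw [pow_one]
    exact hxS
  have hqp' : ¬ q ∣ p ^ 1 := by
    rw [pow_one]
    exact hqp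
  exact mem_toricTower835.2
    (hKer_native835 hS hV hW (pow_pos hp 1) hqp' hx' hxS')

end Level

end Fermat.Agent.S59.LoSqC.H835

end
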