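import Fermat.Agent.S59.LoSqC.H835.SplitPure
import Fermat.Agent.S59.LoSqC.H27.SurjE
import Fermat.Agent.S59.LoSqC.H296.LabJ
import Fermat.Agent.Ribet.H152.GoodInertia

/-!
# S59 / cell (C) LO-SQ, leaf SPLIT-E (helper835), part 2: SPLIT-DICT

`hredS` of the count (`ker red ⊆ S 1`), and in general for every modulus `m` prime to `q`:
at level `N = M q` over an unramified good level `E`,

    a class `x ∈ J₀(M q)` with a Kummer generator over `ℚ̄` whose two reductions are constants
    times `m`-th powers (`H158.WallQ.PPowSeries`, i.e. `x` in the kernel of the reduction map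
    `H296.exists_redHom_h296`) and with an `E`-rational Kummer generator of slope `0` modulo `m`
    (`H27.SlopeZeroE`, the body of `LoSqC.SlopeZero`)
    lies in `H296.kummerClasses296 E (M q) m (H193.splitDiv E w x' m V∞ V₀)`.

* `isKummerGenE296_iff835`   : `H296.IsKummerGenE296` is `H884.IsKummerGen` of `ι y`;
* `isKummerGenE296_div835`   : dividing by `w ^ j · G ^ m` does not change the class;
* `isDVR_vinf835`, `isDVR_vzero835` : `V∞`, `V₀` are discrete valuation rings;
* **`splitDict835`**         : SPLIT-DICT, `E`-rational generator given;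
* `splitDict_fixed835`       : the same for an inertia-fixed class killed by `m` (the
  `E`-rational generator by descent, `H868.exists_fixed_kummerGen`), the slope hypothesis for ALL
  `E`-rational generators;
* `splitDict_normal835`      : the normalised generator itself (`g = y / (w ^ j G ^ m)`,
  `g ∈ splitDiv`).

Inputs: `H27.rSurjAt_of_class` (helper27, SURJ-E core, `b = 1`), `H835.mem_splitDiv_level835`
(PURE-SPLIT).
-/

set_option autoImplicit false
set_option linter.style.haveILetI false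
set_option linter.unusedSectionVars false
set_option linter.unusedVariables false
set_option synthInstance.maxHeartbeats 400000
set_option maxHeartbeats 1600000

noncomputable section

namespace Fermat.Agent.S59.LoSqC.H835

open ModularCurve HahnSeries AlgebraicCurve
open Fermat.Agent
open Fermat.Agent.S24 Fermat.Agent.A2.H528 Fermat.Agent.A2.T1.H669 Fermat.Agent.Ribet.H884
open Fermat.Agent.A2.H708
open Fermat.Agent.Ribet.H158.WallQ (PPowSeries)

local notation "Q̄" => AlgebraicClosure ℚ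

section Kummer

variable {E : IntermediateField ℚ Q̄} {N : ℕ} [NeZero N]

/-- `H296.IsKummerGenE296` is `H884.IsKummerGen` of `ι y`. -/
theorem isKummerGenE296_iff835 {m : ℕ} {y : A2.Mod.FE E N} {x : JZero N} :
    H296.IsKummerGenE296 E N m y x ↔
      IsKummerGen N m (iota E (modularFunctionFieldFull N) y) x := by
  constructor
  · rintro ⟨hy0, hD⟩
    exact ⟨iota_ne_zero E _ hy0, hD⟩
  · rintro ⟨hy0, hD⟩
    refine ⟨?_, hD⟩
    rintro rfl
    exact hy0 (map_zero _)

/-- Dividing an `E`-rational Kummer generator by a constant times an `m`-th power does not change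
the class. -/
theorem isKummerGenE296_div835 {m : ℕ} {y : A2.Mod.FE E N} {x : JZero N}
    (hy : H296.IsKummerGenE296 E N m y x) {e : E} (he : e ≠ 0) {G : A2.Mod.FE E N}
    (hG : G ≠ 0) :
    H296.IsKummerGenE296 E N m (y / (algebraMap E (A2.Mod.FE E N) e * G ^ m)) x := by
  rw [isKummerGenE296_iff835] at hy ⊢
  have hιG : iota E (modularFunctionFieldFull N) G ≠ 0 := iota_ne_zero E _ hG
  have heQ : (algebraMap E Q̄ e)⁻¹ ≠ 0 :=
    inv_ne_zero ((map_ne_zero_iff _ (algebraMap E Q̄).injective).2 he)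
  have h1 := Ribet.H997.isKummerGen_mul_inv_pow hy hιG
  have h2 := Ribet.H868.IsKummerGen.const_mul868 N h1 heQ
  have e1 : iota E (modularFunctionFieldFull N) (y / (algebraMap E (A2.Mod.FE E N) e * G ^ m)) =
      algebraMap Q̄ (FF N) (algebraMap E Q̄ e)⁻¹ *
        (iota E (modularFunctionFieldFull N) y *
          (iota E (modularFunctionFieldFull N) G ^ m)⁻¹) := by
    rw [map_div₀, map_mul, map_pow, iota_algebraMap, map_inv₀, div_eq_mul_inv, mul_inv]
    ring
  rw [e1]
  exact h2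

end Kummer

section Level

variable {P : ValuationSubring A2.Qb} {E : IntermediateField ℚ A2.Qb} {M q : ℕ}
  [NeZero M] [NeZero q] [NeZero (M * q)]

/-- `V∞` of level `M q` is a discrete valuation ring. -/
theorem isDVR_vinf835 {w : A2.RE P E} (hS : S36.Mod3.Std P E M q w)
    {V : ValuationSubring (A2.Mod.FE E (M * q))} (hV : A2.Mod.IsVinf P E (M * q) V) :
    IsDiscreteValuationRing V := by
  have hSet := S36.Mod3.H189.setting_of_std hS
  haveI : IsDiscreteValuationRing (A2.RE P E) := hS.unram.1.dvr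
  have hu : A2.H48.IsUnif V (A2.Mod.cE P E (M * q) w) :=
    (A2.Mod.H553.vinfBasic P E w (M * q) (NeZero.ne _) hSet.dvr hSet.unif V hV).1
  exact S36.H972.isDiscreteValuationRing_of_isUnif hu
    (fun a => S36.H972.arch_vinf hS.unif hV a)

/-- `V₀ = V∞ ∘ W` of level `M q` is a discrete valuation ring. -/
theorem isDVR_vzero835 {w : A2.RE P E} (hS : S36.Mod3.Std P E M q w)
    {V : ValuationSubring (A2.Mod.FE E (M * q))} (hV : A2.Mod.IsVinf P E (M * q) V)
    (W : A2.Mod.FE E (M * q) ≃ₐ[E] A2.Mod.FE E (M * q)) :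
    IsDiscreteValuationRing
      (V.comap (W : A2.Mod.FE E (M * q) →+* A2.Mod.FE E (M * q))) := by
  have hSet := S36.Mod3.H189.setting_of_std hS
  haveI : IsDiscreteValuationRing (A2.RE P E) := hS.unram.1.dvr
  have hu : A2.H48.IsUnif V (A2.Mod.cE P E (M * q) w) :=
    (A2.Mod.H553.vinfBasic P E w (M * q) (NeZero.ne _) hSet.dvr hSet.unif V hV).1
  have hu' := A2.Mod.H13.isUnif_comap hu W
  refine S36.H972.isDiscreteValuationRing_of_isUnif hu' (fun a => ?_)
  obtain ⟨k, hk⟩ := S36.H972.arch_vinf hS.unif hV (W a)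
  refine ⟨k, ?_⟩
  rw [ValuationSubring.mem_comap, map_mul, map_pow]
  have hc : (W : A2.Mod.FE E (M * q) →+* A2.Mod.FE E (M * q)) (A2.Mod.cE P E (M * q) w) =
      A2.Mod.cE P E (M * q) w := W.commutes _
  rw [hc]
  exact hk

/-- **SPLIT-DICT, normalised generator.**  For an `E`-rational Kummer generator `y` of slope `0`
modulo `m` of a class with a Kummer generator over `ℚ̄` whose two reductions are constants times
`m`-th powers: `g = y / (w ^ j G ^ m)` is a unit with `m ∣ div g`, `g ≡ 1` along `V∞` and `V₀`,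
a Kummer generator of the same class. -/
theorem splitDict_normal835 {w : A2.RE P E} (hS : S36.Mod3.Std P E M q w)
    {V : ValuationSubring (A2.Mod.FE E (M * q))} (hV : A2.Mod.IsVinf P E (M * q) V)
    {W : A2.Mod.FE E (M * q) ≃ₐ[E] A2.Mod.FE E (M * q)} (hW : A2.Mod.IsFricke E (M * q) W)
    {m : ℕ} (hm : 0 < m) (hqm : ¬ q ∣ m)
    {x : JZero (M * q)} {f : FF (M * q)} (hf : IsKummerGen (M * q) m f x)
    {r₁ r₂ : LaurentSeries (kA P)}
    (h₁ : IsRedInf (M * q) P f r₁) (h₂ : IsRedZero (M * q) P f r₂)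
    (hr₁ : PPowSeries m M r₁) (hr₂ : PPowSeries m M r₂)
    {y : A2.Mod.FE E (M * q)} (hy : H296.IsKummerGenE296 E (M * q) m y x)
    (hslope : H27.SlopeZeroE P E (M * q) w m V
      (V.comap (W : A2.Mod.FE E (M * q) →+* A2.Mod.FE E (M * q))) y) :
    ∃ (j : ℤ) (G : A2.Mod.FE E (M * q)), G ≠ 0 ∧
      A2.DivisibleDiv E m (y / (A2.Mod.cE P E (M * q) w ^ j * G ^ m)) ∧
      y / (A2.Mod.cE P E (M * q) w ^ j * G ^ m) - 1 ∈ V.nonunits ∧
      y / (A2.Mod.cE P E (M * q) w ^ j * G ^ m) - 1 ∈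
        (V.comap (W : A2.Mod.FE E (M * q) →+* A2.Mod.FE E (M * q))).nonunits ∧
      H296.IsKummerGenE296 E (M * q) m (y / (A2.Mod.cE P E (M * q) w ^ j * G ^ m)) x := by
  have hE := hS.unram.1
  have hSet := S36.Mod3.H189.setting_of_std hS
  haveI : IsDiscreteValuationRing (A2.RE P E) := hS.unram.1.dvr
  have hdV := isDVR_vinf835 hS hV
  have hdV₀ := isDVR_vzero835 hS hV W
  have h12 : V ≠ V.comap (W : A2.Mod.FE E (M * q) →+* A2.Mod.FE E (M * q)) := fun h =>
    A2.Mod.H553.vzeroNe P E M q w hSet V W hV hW h.symm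
  have hyK := isKummerGenE296_iff835.1 hy
  have hone : IsRedZero (M * q) P
      (iota E (modularFunctionFieldFull (M * q)) (1 : A2.Mod.FE E (M * q))) 1 := by
    rw [map_one]
    exact isRedZero_one
  have hr₂' : ∃ (c : kA P) (s : modularFunctionFieldFullC (kA P) M), c ≠ 0 ∧ s ≠ 0 ∧
      r₂ = HahnSeries.C c * 1 * (s : LaurentSeries (kA P)) ^ m := by
    obtain ⟨c, s, hc, hs, e⟩ := hr₂
    exact ⟨c, s, hc, hs, by rw [mul_one]; exact e⟩
  obtain ⟨j, G, hG0, hD, hg₁, hg₂⟩ := H27.rSurjAt_of_class (N := M * q) (M := M) (q := q) rfl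
    hS.q_prime hS.q_not_dvd hS.lies_over hE hS.unif hV hW rfl hdV hdV₀ h12 hm hqm
    (b := 1) (map_one _) hone hf h₁ h₂ hr₁ hr₂' hyK hslope
  refine ⟨j, G, hG0, hD, hg₁, ?_, ?_⟩
  · rwa [div_one] at hg₂
  · have hw0 : (w : E) ≠ 0 := fun h => hS.unif.ne_zero (Subtype.ext h)
    have hc : A2.Mod.cE P E (M * q) w ^ j =
        algebraMap E (A2.Mod.FE E (M * q)) ((w : E) ^ j) := by
      rw [map_zpow₀]
      rfl
    rw [hc]
    exact isKummerGenE296_div835 hy (zpow_ne_zero _ hw0) hG0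

/-- **SPLIT-DICT** (`hredS` of the count, every modulus `m` prime to `q`). -/
theorem splitDict835 [IsDiscreteValuationRing (A2.RE P E)] [HenselianLocalRing (A2.RE P E)]
    [IsAlgClosed (IsLocalRing.ResidueField (A2.RE P E))] {w : A2.RE P E}
    (hS : S36.Mod3.Std P E M q w)
    {V : ValuationSubring (A2.Mod.FE E (M * q))} (hV : A2.Mod.IsVinf P E (M * q) V)
    {W : A2.Mod.FE E (M * q) ≃ₐ[E] A2.Mod.FE E (M * q)} (hW : A2.Mod.IsFricke E (M * q) W)
    {m : ℕ} (hm : 0 < m) (hqm : ¬ q ∣ m)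
    {x : JZero (M * q)} {f : FF (M * q)} (hf : IsKummerGen (M * q) m f x)
    {r₁ r₂ : LaurentSeries (kA P)}
    (h₁ : IsRedInf (M * q) P f r₁) (h₂ : IsRedZero (M * q) P f r₂)
    (hr₁ : PPowSeries m M r₁) (hr₂ : PPowSeries m M r₂)
    {y : A2.Mod.FE E (M * q)} (hy : H296.IsKummerGenE296 E (M * q) m y x)
    (hslope : H27.SlopeZeroE P E (M * q) w m V
      (V.comap (W : A2.Mod.FE E (M * q) →+* A2.Mod.FE E (M * q))) y) :
    x ∈ H296.kummerClasses296 E (M * q) m
      (H193.splitDiv (R := A2.RE P E) E w (A2.Mod.xE E M q) m V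
        (V.comap (W : A2.Mod.FE E (M * q) →+* A2.Mod.FE E (M * q)))) := by
  obtain ⟨j, G, hG0, hD, hg₁, hg₂, hK⟩ :=
    splitDict_normal835 hS hV hW hm hqm hf h₁ h₂ hr₁ hr₂ hy hslope
  have hg0 : y / (A2.Mod.cE P E (M * q) w ^ j * G ^ m) ≠ 0 := hK.1
  refine ⟨Units.mk0 _ hg0, ?_, ?_⟩
  · exact mem_splitDiv_level835 hS hV hW hm (u := Units.mk0 _ hg0) hD hg₁ hg₂
  · exact hK

/-- **SPLIT-DICT for inertia-fixed classes**: the `E`-rational Kummer generator by descent. -/
theorem splitDict_fixed835 [IsDiscreteValuationRing (A2.RE P E)]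
    [HenselianLocalRing (A2.RE P E)]
    [IsAlgClosed (IsLocalRing.ResidueField (A2.RE P E))] {w : A2.RE P E}
    (hS : S36.Mod3.Std P E M q w)
    {V : ValuationSubring (A2.Mod.FE E (M * q))} (hV : A2.Mod.IsVinf P E (M * q) V)
    {W : A2.Mod.FE E (M * q) ≃ₐ[E] A2.Mod.FE E (M * q)} (hW : A2.Mod.IsFricke E (M * q) W)
    {m : ℕ} (hm : 0 < m) (hqm : ¬ q ∣ m)
    {x : JZero (M * q)} (hmx : m • x = 0)
    (hfix : ∀ σ ∈ P.inertiaSubgroupIn ℚ, σ • x = x)
    {f : FF (M * q)} (hf : IsKummerGen (M * q) m f x)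
    {r₁ r₂ : LaurentSeries (kA P)}
    (h₁ : IsRedInf (M * q) P f r₁) (h₂ : IsRedZero (M * q) P f r₂)
    (hr₁ : PPowSeries m M r₁) (hr₂ : PPowSeries m M r₂)
    (hslope : ∀ y : A2.Mod.FE E (M * q), H296.IsKummerGenE296 E (M * q) m y x →
      H27.SlopeZeroE P E (M * q) w m V
        (V.comap (W : A2.Mod.FE E (M * q) →+* A2.Mod.FE E (M * q))) y) :
    x ∈ H296.kummerClasses296 E (M * q) m
      (H193.splitDiv (R := A2.RE P E) E w (A2.Mod.xE E M q) m V
        (V.comap (W : A2.Mod.FE E (M * q) →+* A2.Mod.FE E (M * q)))) := by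
  have hEI : A2.IF.H429.inertiaField P ≤ E :=
    Ribet.H152.inertiaField_le_of_goodField P E q hS.q_prime hS.lies_over hS.unram.1
  obtain ⟨y₀, -, hyK₀, -⟩ :=
    Ribet.H868.exists_fixed_kummerGen (M * q) m P x hmx hfix
  obtain ⟨y, hy⟩ := H27.exists_iota_up (M * q) hEI y₀
  have hyK : IsKummerGen (M * q) m (iota E (modularFunctionFieldFull (M * q)) y) x := by
    rw [hy]
    exact hyK₀
  have hyE := isKummerGenE296_iff835.2 hyK
  exact splitDict835 hS hV hW hm hqm hf h₁ h₂ hr₁ hr₂ hyE (hslope y hyE)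

end Level

end Fermat.Agent.S59.LoSqC.H835

end
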