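import Fermat.Agent.S59.LoSqC.H835.SplitDict
import Fermat.Agent.S59.LoSqC.H27.PlugCast

/-!
# S59 / cell (C) LO-SQ, leaf SPLIT-E (helper835), part 3: SPLIT-DICT with the `J`-side at the
level `q * M` (`hredS` of the count in the assembly shape)

The `J`-form of the count (`H296.exists_redHom_h296`, `H158.WallQ.splitPartQ m q M P`) lives at
the level `q * M`, the objects of `S36.Mod3.Objs` and the toric group
`S 1 = H296.kummerClasses296 E (M * q) m (H193.splitDiv E w x' m V∞ V₀)` at the level `M * q`.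
The two are identified by `H27.levelCastJ` (helper27, as in the leaf (R)
`H27.rSurj1E_of_rSurjJ_at`).

* `splitDict_cast835` : SPLIT-DICT with the `ℚ̄`-generator at ANY level `N = M * q`;
* **`hredS835`**      : `x' ∈ splitPartQ m q M P` (`= ker red`) with an `E`-rational Kummer
  generator of slope `0` ⟹ `levelCastJ x' ∈ S 1`;
* **`hredS_at835`**   : the same for a subgroup `F₁ ≤ J₀(M q)` in the shape of the hypothesis `hF`
  of `H27.rSurj1E_of_rSurjJ_at`: `F₁ ∩ (cast of ker red) ⊆ S 1`;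
* `hredS_red835`      : the same, with `H296.IsRedClassQ … 0` (the defining relation of `red`).
-/

set_option autoImplicit false
set_option linter.style.haveILetI false
set_option linter.unusedSectionVars false
set_option linter.unusedVariables false
set_option synthInstance.maxHeartbeats 400000
set_option maxHeartbeats 1600000

noncomputable section

namespace Fermat.Agent.S59.LoSqC.H835

open ModularCurve HahnSeries AlgebraicCurve
open Fermat.Agent
open Fermat.Agent.S24 Fermat.Agent.A2.H528 Fermat.Agent.A2.T1.H669 Fermat.Agent.Ribet.H884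
open Fermat.Agent.A2.H708
open Fermat.Agent.Ribet.H158.WallQ

local notation "Q̄" => AlgebraicClosure ℚ

section Level

variable {P : ValuationSubring A2.Qb} {E : IntermediateField ℚ A2.Qb} {M q : ℕ}
  [NeZero M] [NeZero q] [NeZero (M * q)]

/-- **SPLIT-DICT, the `ℚ̄`-generator at a level `N = M * q`.** -/
theorem splitDict_cast835 [IsDiscreteValuationRing (A2.RE P E)]
    [HenselianLocalRing (A2.RE P E)]
    [IsAlgClosed (IsLocalRing.ResidueField (A2.RE P E))] {w : A2.RE P E}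
    (hS : S36.Mod3.Std P E M q w)
    {V : ValuationSubring (A2.Mod.FE E (M * q))} (hV : A2.Mod.IsVinf P E (M * q) V)
    {W : A2.Mod.FE E (M * q) ≃ₐ[E] A2.Mod.FE E (M * q)} (hW : A2.Mod.IsFricke E (M * q) W)
    {m : ℕ} (hm : 0 < m) (hqm : ¬ q ∣ m)
    {N : ℕ} [NeZero N] (hN : N = M * q)
    {x' : JZero N} {f : FF N} (hf : IsKummerGen N m f x')
    {r₁ r₂ : LaurentSeries (kA P)}
    (h₁ : IsRedInf N P f r₁) (h₂ : IsRedZero N P f r₂)
    (hr₁ : PPowSeries m M r₁) (hr₂ : PPowSeries m M r₂)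
    {y : A2.Mod.FE E (M * q)}
    (hy : H296.IsKummerGenE296 E (M * q) m y (H27.levelCastJ hN x'))
    (hslope : H27.SlopeZeroE P E (M * q) w m V
      (V.comap (W : A2.Mod.FE E (M * q) →+* A2.Mod.FE E (M * q))) y) :
    H27.levelCastJ hN x' ∈ H296.kummerClasses296 E (M * q) m
      (H193.splitDiv (R := A2.RE P E) E w (A2.Mod.xE E M q) m V
        (V.comap (W : A2.Mod.FE E (M * q) →+* A2.Mod.FE E (M * q)))) := by
  subst hN
  have e : H27.levelCastJ (rfl : M * q = M * q) x' = x' := rfl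
  rw [e] at hy ⊢
  exact splitDict835 hS hV hW hm hqm hf h₁ h₂ hr₁ hr₂ hy hslope

variable [NeZero (q * M)]

/-- **`hredS`** (kernel of the reduction inside the toric part), pointwise. -/
theorem hredS835 [IsDiscreteValuationRing (A2.RE P E)] [HenselianLocalRing (A2.RE P E)]
    [IsAlgClosed (IsLocalRing.ResidueField (A2.RE P E))] {w : A2.RE P E}
    (hS : S36.Mod3.Std P E M q w)
    {V : ValuationSubring (A2.Mod.FE E (M * q))} (hV : A2.Mod.IsVinf P E (M * q) V)
    {W : A2.Mod.FE E (M * q) ≃ₐ[E] A2.Mod.FE E (M * q)} (hW : A2.Mod.IsFricke E (M * q) W)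
    {m : ℕ} (hm : 0 < m) (hqm : ¬ q ∣ m)
    {x' : JZero (q * M)} (hx' : x' ∈ splitPartQ m q M P)
    {y : A2.Mod.FE E (M * q)}
    (hy : H296.IsKummerGenE296 E (M * q) m y (H27.levelCastJ (Nat.mul_comm q M) x'))
    (hslope : H27.SlopeZeroE P E (M * q) w m V
      (V.comap (W : A2.Mod.FE E (M * q) →+* A2.Mod.FE E (M * q))) y) :
    H27.levelCastJ (Nat.mul_comm q M) x' ∈ H296.kummerClasses296 E (M * q) m
      (H193.splitDiv (R := A2.RE P E) E w (A2.Mod.xE E M q) m V
        (V.comap (W : A2.Mod.FE E (M * q) →+* A2.Mod.FE E (M * q)))) := by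
  obtain ⟨f, hf, r₁, r₂, h₁, h₂, hr₁, hr₂⟩ :=
    Ribet.H708.Q3Pow.mem_splitSetQ_of_mem_splitPartQ hx'
  exact splitDict_cast835 hS hV hW hm hqm (Nat.mul_comm q M) hf h₁ h₂ hr₁ hr₂ hy hslope

/-- **`hredS`** with the defining relation of `red` (`H296.IsRedClassQ`). -/
theorem hredS_red835 [IsDiscreteValuationRing (A2.RE P E)] [HenselianLocalRing (A2.RE P E)]
    [IsAlgClosed (IsLocalRing.ResidueField (A2.RE P E))] {w : A2.RE P E}
    (hS : S36.Mod3.Std P E M q w)
    {V : ValuationSubring (A2.Mod.FE E (M * q))} (hV : A2.Mod.IsVinf P E (M * q) V)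
    {W : A2.Mod.FE E (M * q) ≃ₐ[E] A2.Mod.FE E (M * q)} (hW : A2.Mod.IsFricke E (M * q) W)
    {m : ℕ} (hm : 0 < m) (hqm : ¬ q ∣ m)
    {x' : JZero (q * M)}
    (hx' : H296.IsRedClassQ m q M P x' (0 : JZeroC (kA P) M × JZeroC (kA P) M))
    {y : A2.Mod.FE E (M * q)}
    (hy : H296.IsKummerGenE296 E (M * q) m y (H27.levelCastJ (Nat.mul_comm q M) x'))
    (hslope : H27.SlopeZeroE P E (M * q) w m V
      (V.comap (W : A2.Mod.FE E (M * q) →+* A2.Mod.FE E (M * q))) y) :
    H27.levelCastJ (Nat.mul_comm q M) x' ∈ H296.kummerClasses296 E (M * q) m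
      (H193.splitDiv (R := A2.RE P E) E w (A2.Mod.xE E M q) m V
        (V.comap (W : A2.Mod.FE E (M * q) →+* A2.Mod.FE E (M * q)))) := by
  obtain ⟨f, hf, r₁, r₂, h₁, h₂, hr₁, hr₂⟩ :=
    hx'.mem_splitSetQ hS.q_prime hS.q_not_dvd hS.lies_over
  exact splitDict_cast835 hS hV hW hm hqm (Nat.mul_comm q M) hf h₁ h₂ hr₁ hr₂ hy hslope

/-- **`hredS`** for a subgroup `F₁ ≤ J₀(M q)` of classes with an `E`-rational Kummer generator of
slope `0` (the hypothesis `hF` of `H27.rSurj1E_of_rSurjJ_at`, VERBATIM):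
`F₁ ∩ levelCastJ (splitPartQ) ⊆ S 1`. -/
theorem hredS_at835 [IsDiscreteValuationRing (A2.RE P E)] [HenselianLocalRing (A2.RE P E)]
    [IsAlgClosed (IsLocalRing.ResidueField (A2.RE P E))] {w : A2.RE P E}
    (hS : S36.Mod3.Std P E M q w)
    {V : ValuationSubring (A2.Mod.FE E (M * q))} (hV : A2.Mod.IsVinf P E (M * q) V)
    {W : A2.Mod.FE E (M * q) ≃ₐ[E] A2.Mod.FE E (M * q)} (hW : A2.Mod.IsFricke E (M * q) W)
    {m : ℕ} (hm : 0 < m) (hqm : ¬ q ∣ m)
    (F₁ : AddSubgroup (JZero (M * q)))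
    (hF : ∀ x ∈ F₁, ∃ g : A2.Mod.FE E (M * q),
      IsKummerGen (M * q) m (iota E (modularFunctionFieldFull (M * q)) g) x ∧
      H27.SlopeZeroE P E (M * q) w m V
        (V.comap (W : A2.Mod.FE E (M * q) →+* A2.Mod.FE E (M * q))) g) :
    ∀ x' : JZero (q * M), H27.levelCastJ (Nat.mul_comm q M) x' ∈ F₁ →
      x' ∈ splitPartQ m q M P →
      H27.levelCastJ (Nat.mul_comm q M) x' ∈ H296.kummerClasses296 E (M * q) m
        (H193.splitDiv (R := A2.RE P E) E w (A2.Mod.xE E M q) m V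
          (V.comap (W : A2.Mod.FE E (M * q) →+* A2.Mod.FE E (M * q)))) := by
  intro x' hxF hxS
  obtain ⟨g, hg, hsl⟩ := hF _ hxF
  exact hredS835 hS hV hW hm hqm hxS (isKummerGenE296_iff835.2 hg) hsl

end Level

end Fermat.Agent.S59.LoSqC.H835

end
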