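import Fermat.Agent.S59.LoSqC.H193.TwoCtxLeaf
import Fermat.Agent.Ribet.H997.Dict

/-!
# S59 / cell (C) LO-SQ, leaf SPLIT-E (helper835), part 1: PURE-SPLIT

Objects of `S36.Mod3.Objs` at level `M q` (`q ∤ M`, neat): `R = R_E = P ∩ E`, `F' = F_E(M q)`,
`x' = j j_q = A2.Mod.xE E M q`, `V₁' = V∞`, `V₂' = V₀ = V∞ ∘ W'`.

* `isPureAt_of_pureAt835` : an `A2.Alg.PureAt` datum is an `H193.IsPureAt` datum;
* **`isSplitPure_level835`** : for every `m > 0` and every `u ∈ F'` with `m ∣ div u`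
  (`A2.DivisibleDiv E m u`), `u ≡ 1` along `V∞` and along `V₀`:
  `H193.IsSplitPure w x' m V∞ V₀ u`, i.e. `u` has a purity datum at EVERY closed point of the
  special fibre of both charts.  (`A2.Alg.H609.pureAt_of_isSplit` on the standard semistable model
  `A2.Mod`; no hypothesis on the residue characteristic versus `m`.)
* `mem_splitDiv_level835` : the same, as membership in `H193.splitDiv`.
-/

set_option autoImplicit false
set_option linter.style.haveILetI false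
set_option linter.unusedSectionVars false
set_option linter.unusedVariables false
set_option synthInstance.maxHeartbeats 400000
set_option maxHeartbeats 1600000

noncomputable section

namespace Fermat.Agent.S59.LoSqC.H835

open ModularCurve Polynomial
open Fermat.Agent.S18.H138 (chart)
open Fermat.Agent

section Abs

variable {R : Type*} [CommRing R] {F : Type*} [Field F] [Algebra R F]

/-- An `A2.Alg.PureAt` datum is an `H193.IsPureAt` datum. -/
theorem isPureAt_of_pureAt835 {w : R} {B : Subalgebra R F} {c : A2.SSChart w B} {m : ℕ} {u : F}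
    {n : Ideal B} (h : A2.Alg.PureAt B c m u n) : ∃ d : F, H193.IsPureAt B n m u d := by
  obtain ⟨d, hd, ⟨a, b, ha, hb, hab⟩, -, -⟩ := h
  exact ⟨d, hd, a, b, ha, hb, hab⟩

end Abs

section Level

variable {P : ValuationSubring A2.Qb} {E : IntermediateField ℚ A2.Qb} {M q : ℕ}
  [NeZero M] [NeZero q] [NeZero (M * q)]

/-- **PURE-SPLIT at level `M q`.** -/
theorem isSplitPure_level835 {w : A2.RE P E}
    (hS : S36.Mod3.Std P E M q w)
    {V : ValuationSubring (A2.Mod.FE E (M * q))} (hV : A2.Mod.IsVinf P E (M * q) V)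
    {W : A2.Mod.FE E (M * q) ≃ₐ[E] A2.Mod.FE E (M * q)} (hW : A2.Mod.IsFricke E (M * q) W)
    {m : ℕ} (hm : 0 < m) {u : A2.Mod.FE E (M * q)} (hdiv : A2.DivisibleDiv E m u)
    (h₁ : u - 1 ∈ V.nonunits)
    (h₂ : u - 1 ∈ (V.comap (W : A2.Mod.FE E (M * q) →+* A2.Mod.FE E (M * q))).nonunits) :
    H193.IsSplitPure (R := A2.RE P E) w (A2.Mod.xE E M q) m V
      (V.comap (W : A2.Mod.FE E (M * q) →+* A2.Mod.FE E (M * q))) u := by
  have hSet := S36.Mod3.H189.setting_of_std hS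
  haveI hdvr : IsDiscreteValuationRing (A2.RE P E) := hS.unram.1.dvr
  haveI : HenselianLocalRing (A2.RE P E) := hS.unram.1.henselian
  haveI : IsAlgClosed (IsLocalRing.ResidueField (A2.RE P E)) := hS.unram.1.algClosed
  have hAux := hS.neat.hasAux
  have hw := hS.unif
  obtain ⟨D, hDx⟩ := Ribet.H997.exists_modSSData P E M q hS.q_prime hS.q_not_dvd hAux.1 hAux.2
    hS.lies_over hdvr
  obtain ⟨cf⟩ := D.cf w hw
  obtain ⟨ci⟩ := D.ci w hw
  have hCf : A2.Alg.ChartCtx E w D.x D.Bf := ⟨hw, D.hx, D.hfin, D.hconst, D.hBf⟩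
  have hCi : A2.Alg.ChartCtx E w D.x⁻¹ D.Bi :=
    A2.Alg.H34.chartCtx_inv w hw D.x D.hx D.hfin D.hconst D.Bi D.hBi
  have hwm : w ∈ IsLocalRing.maximalIdeal (A2.RE P E) :=
    (IsLocalRing.mem_maximalIdeal w).2 hw.not_isUnit
  have hw0 : algebraMap (A2.RE P E) (A2.Mod.FE E (M * q)) w ≠ 0 := by
    intro h0
    have h1 : algebraMap E (A2.Mod.FE E (M * q)) (w : E) = 0 := h0
    rw [map_eq_zero] at h1
    exact hw.ne_zero (Subtype.ext h1)
  have hxtr : Transcendental E (A2.Mod.xE E M q) := hDx ▸ D.hx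
  have hne : V ≠ V.comap (W : A2.Mod.FE E (M * q) →+* A2.Mod.FE E (M * q)) := fun h =>
    A2.Mod.H553.vzeroNe P E M q w hSet V W hV hW h.symm
  have hc₁ : S35.H433.ValCtx w D.x V := by
    rw [hDx]
    exact Ribet.H997.valCtx_of_gauss hwm hw0 (A2.Mod.H13.isGaussOver_xE hw hV hxtr)
  have hc₂ : S35.H433.ValCtx w D.x
      (V.comap (W : A2.Mod.FE E (M * q) →+* A2.Mod.FE E (M * q))) := by
    rw [hDx]
    exact Ribet.H997.valCtx_of_gauss hwm hw0 (A2.Mod.H13.isGaussOver_comap_xE hw hV hW hxtr)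
  have hcv₁ : S35.H433.ConstV (A2.RE P E) V u := ⟨1, isUnit_one, by rwa [map_one]⟩
  have hcv₂ : S35.H433.ConstV (A2.RE P E)
      (V.comap (W : A2.Mod.FE E (M * q) →+* A2.Mod.FE E (M * q))) u :=
    ⟨1, isUnit_one, by rwa [map_one]⟩
  have hsf : A2.Alg.IsSplit D.Bf cf u :=
    S35.H433.isSplit_of_constV w D.x D.Bf hCf cf V _ hc₁ hc₂ hne hcv₁ hcv₂
  have hsi : A2.Alg.IsSplit D.Bi ci u :=
    S35.H433.isSplit_of_constV w D.x⁻¹ D.Bi hCi ci V _ hc₁.inv hc₂.inv hne hcv₁ hcv₂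
  have hBf : D.Bf = chart (A2.RE P E) ({A2.Mod.xE E M q} : Set (A2.Mod.FE E (M * q))) := by
    apply SetLike.ext
    intro f
    rw [D.hBf, hDx]
    exact Iff.rfl
  have hBi : D.Bi = chart (A2.RE P E) ({(A2.Mod.xE E M q)⁻¹} : Set (A2.Mod.FE E (M * q))) := by
    apply SetLike.ext
    intro f
    rw [D.hBi, hDx]
    exact Iff.rfl
  have pf : ∀ n : Ideal D.Bf, n.IsMaximal → algebraMap (A2.RE P E) D.Bf w ∈ n →
      ∃ d, H193.IsPureAt D.Bf n m u d := fun n hn hwn =>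
    isPureAt_of_pureAt835
      (A2.Alg.H609.pureAt_of_isSplit m hm w D.x D.Bf hCf cf u hdiv hsf n hn.isPrime hwn)
  have pi : ∀ n : Ideal D.Bi, n.IsMaximal → algebraMap (A2.RE P E) D.Bi w ∈ n →
      ∃ d, H193.IsPureAt D.Bi n m u d := fun n hn hwn =>
    isPureAt_of_pureAt835
      (A2.Alg.H609.pureAt_of_isSplit m hm w D.x⁻¹ D.Bi hCi ci u hdiv hsi n hn.isPrime hwn)
  refine ⟨h₁, h₂, ?_, ?_⟩
  · rw [← hBf]
    exact fun n hn => pf n hn.1 hn.2
  · rw [← hBi]
    exact fun n hn => pi n hn.1 hn.2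

/-- PURE-SPLIT as membership in `H193.splitDiv`. -/
theorem mem_splitDiv_level835 [IsDiscreteValuationRing (A2.RE P E)]
    [HenselianLocalRing (A2.RE P E)]
    [IsAlgClosed (IsLocalRing.ResidueField (A2.RE P E))] {w : A2.RE P E}
    (hS : S36.Mod3.Std P E M q w)
    {V : ValuationSubring (A2.Mod.FE E (M * q))} (hV : A2.Mod.IsVinf P E (M * q) V)
    {W : A2.Mod.FE E (M * q) ≃ₐ[E] A2.Mod.FE E (M * q)} (hW : A2.Mod.IsFricke E (M * q) W)
    {m : ℕ} (hm : 0 < m) {u : (A2.Mod.FE E (M * q))ˣ}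
    (hdiv : A2.DivisibleDiv E m (u : A2.Mod.FE E (M * q)))
    (h₁ : (u : A2.Mod.FE E (M * q)) - 1 ∈ V.nonunits)
    (h₂ : (u : A2.Mod.FE E (M * q)) - 1 ∈
      (V.comap (W : A2.Mod.FE E (M * q) →+* A2.Mod.FE E (M * q))).nonunits) :
    u ∈ H193.splitDiv (R := A2.RE P E) E w (A2.Mod.xE E M q) m V
      (V.comap (W : A2.Mod.FE E (M * q) →+* A2.Mod.FE E (M * q))) :=
  ⟨isSplitPure_level835 hS hV hW hm hdiv h₁ h₂, hdiv⟩

end Level

end Fermat.Agent.S59.LoSqC.H835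

end
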